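import Fermat.Agent.LT.Descent.Final
import Fermat.Agent.LT.Lift.Final
import Fermat.Agent.LT.Top.Assembly
import Fermat.Agent.LT.LevelThree.Main
import Fermat.Agent.LT.Chain.Main
import Fermat.Agent.FreyModel.Basic
import Fermat.Agent.FreyConductor.Basic
import Fermat.Agent.LevelTwo.Descent
import Fermat.Agent.TopWiring.Basic
import Fermat.Agent.S05
import Fermat.Agent.S07
import Fermat.Agent.S09
import Fermat.Agent.S43
import Fermat.Agent.S44
import Fermat.Agent.S48
import Fermat.Agent.S59

/-!
# Fermat's Last Theorem

The top of the proof, each step stated without hypotheses.

1. Langlands–Tunnell at good supersingular reduction at `3`: cubic descent to a split weight one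
   form, the theta lift, the theorem of Deligne and Serre (S48) and the removal of the excess power
   of `3` give the residual base case.
2. Modularity lifting at `3` and `5` (S59) and three switches between `3` and `5` give modularity
   at exact conductor level of every semistable model, hence S50, S60, S04 and S06.
3. Level lowering at `p` (S44) and at the odd primes other than `p` (S05, S43) brings the level of
   the Frey representation down to `2` (S45); it is irreducible (S09) and there is no cusp form of
   weight `2` and level `2` (S07), so there is no Frey package (S03) and S01 follows.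
-/

set_option autoImplicit false

noncomputable section

open WeierstrassCurve WeierstrassCurve.Affine.Point

namespace Fermat.Agent.FLT

/-- The residual base case of Langlands–Tunnell: at good supersingular reduction at `3`, the mod
`3` representation is modular of a level without `9` and without cubes away from `3`. -/
theorem supersingularBaseAtThree : LT.Chain.SupersingularBaseAtThree :=
  LT.Top.supersingularBaseAtThree LT.Descent.descentStep LT.Lift.liftStep
    (fun N _ ε f h1 hT => Fermat.Agent.S48.result N ε f h1 hT)
    LT.LevelThree.levelThreeStep_final

/-- Modularity lifting at `3` and `5` for semistable models (S59). -/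
theorem liftingAtThreeFive : ModularityGlue.LiftingAtThreeFive :=
  fun p hp W hΔ hW hirr M₀ _ hres hM hM3 =>
    Fermat.Agent.S59.result p hp W hΔ hW hirr M₀ hres hM hM3

/-- Every semistable integral model is modular at its exact conductor level. -/
theorem exactConductorLevel (W : WeierstrassCurve ℤ) (hΔ : W.Δ ≠ 0) (hW : W.IsSemistableModel) :
    Mlc1IsModularModelOfExactConductorLevel W :=
  LT.Chain.exactConductor supersingularBaseAtThree liftingAtThreeFive W hΔ hW

/-- S50: an irreducible mod `3` representation of a semistable curve is modular, of a squarefree
level. -/
theorem residualModularityAtThree : ModularityGlue.ResidualModularityAtThree := by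
  intro W hΔ hW _
  obtain ⟨N, hN, hsq, hiff, hmod⟩ := exactConductorLevel W hΔ hW
  refine ⟨N, hN, ModularityGlue.isResiduallyModularOfLevel_of_congruent Nat.prime_three
    (fun q hq hq' => (hiff q hq).mpr hq') hmod (fun ℓ _ _ _ _ => by simp), fun q hq _ hd => ?_,
    fun hd => absurd hd (ModularityGlue.not_sq_dvd_of_squarefree hsq Nat.prime_three)⟩
  exact ModularityGlue.not_sq_dvd_of_squarefree hsq hq
    ((pow_dvd_pow q (by norm_num : 2 ≤ 3)).trans hd)

/-- S60: semistable elliptic curves over `ℚ` are modular. -/
theorem semistable_isModular (W : WeierstrassCurve ℤ) (hΔ : W.Δ ≠ 0) (hW : W.IsSemistableModel) :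
    (W.map (Int.castRingHom ℚ)).IsModular :=
  ModularityGlue.isModular_of_exactConductorLevel (exactConductorLevel W hΔ hW)

/-- S04: the Frey curve is modular. -/
theorem frey_isModular (P : FreyPackage) : P.freyCurve.IsModular :=
  FreyModel.freyCurve_isModular_of_semistable P semistable_isModular

/-- S06: the mod `p` representation of the Frey curve is modular of a conductor level. -/
theorem frey_modularRepOfConductorLevel (P : FreyPackage) :
    ∃ N : ℕ, P.IsConductorLevel N ∧ P.ModularRepOfLevel N :=
  FreyConductor.exists_conductorLevel_of_semistable exactConductorLevel P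

/-- S45: an irreducible Frey representation gives a nonzero cusp form of weight `2` and level
`2`, by lowering the level at `p` and at the odd primes other than `p`. -/
theorem exists_levelTwoForm (P : FreyPackage)
    (hirr : GaloisRepIsIrreducible (K := AlgebraicClosure ℚ) ℚ P.freyCurve P.p) :
    ∃ f : CuspForm (CongruenceSubgroup.Gamma0 2) 2, f ≠ 0 :=
  LevelTwo.levelLoweringToTwo_of P (fun _ => Fermat.Agent.S05.result P)
    (frey_modularRepOfConductorLevel P) (Fermat.Agent.S43.result P) (Fermat.Agent.S44.result P)
    hirr

/-- S03: there is no Frey package. -/
theorem noFreyPackage (P : FreyPackage) : False :=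
  TopWiring.noFreyPackage_of_levelTwo frey_isModular Fermat.Agent.S09.result
    (fun P _ hirr => exists_levelTwoForm P hirr) Fermat.Agent.S07.result P

/-- S01: Fermat's Last Theorem. -/
theorem fermat (n : ℕ) (hn : 3 ≤ n) (a b c : ℕ) (ha : 0 < a) (hb : 0 < b) (hc : 0 < c) :
    a ^ n + b ^ n ≠ c ^ n :=
  TopWiring.fermat_of_noFreyPackage noFreyPackage n hn a b c ha hb hc

end Fermat.Agent.FLT

end
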